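import Fermat.Agent.RT.MazurP.Endgame.Level
import Fermat.Agent.RT.Lifting.Interface

/-!
# The level lowering input at `p` of the lifting argument
-/

set_option autoImplicit false

noncomputable section

namespace Fermat.Agent.RT.MazurP

/-- Removing `p ≥ 5` from a squarefree level. -/
theorem lowerPInput (p : ℕ) [Fact p.Prime] : RT.Lifting.LowerPInput p := by
  intro E hΔ0 hss hirr hp5 hΔ hv M hpM hM hmod
  have hp : p.Prime := Fact.out
  obtain ⟨M₀, rfl⟩ := hpM
  rw [Nat.mul_div_cancel_left M₀ hp.pos]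
  have : NeZero M₀ := ⟨right_ne_zero_of_mul hM.ne_zero⟩
  refine isResiduallyModular_lowerAtMult hp5 hΔ0 hΔ (fun h => hss p hp hΔ h) hv hirr (fun h => ?_) hmod
  exact hp.ne_one (Nat.isUnit_iff.mp (hM p (mul_dvd_mul_left p h)))

end Fermat.Agent.RT.MazurP

end
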