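import Fermat.Agent.RT.MazurP.Endgame.Torsion
import Fermat.Agent.RT.MazurP.LocalE
import Fermat.Agent.EC.Rep.TWHypothesis

/-!
# Inertia over `p` on `E[p]`: scalars and the commutation relation
-/

set_option autoImplicit false
set_option synthInstance.maxHeartbeats 400000

open scoped WeierstrassCurve.Affine Pointwise
open WeierstrassCurve WeierstrassCurve.Affine Fermat.Agent.Arith

noncomputable section

namespace Fermat.Agent.RT.MazurP

open Fermat.Agent.EC.Reduction Fermat.Agent.EC.Multiplicative Fermat.Agent.EC.Rep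
open Fermat.Agent.EC.AtP (PointQBar)

variable {A : ValuationSubring (AlgebraicClosure ℚ)} {W : WeierstrassCurve ℤ} {p : ℕ}
  [Fact p.Prime] (hΔ0 : W.Δ ≠ 0)

/-- An element fixing all torsion points acts trivially in the residual representation. -/
theorem residualRep_eq_one_of_forall {g : GQ}
    (h : ∀ x : PointQBar W, (p : ℤ) • x = 0 → g • x = x) : (residualRep W p hΔ0).ρ g = 1 :=
  LinearMap.ext fun x => Subtype.ext (h x.1 ((Submodule.mem_torsionBy_iff _ _).mp x.2))

/-- A scalar acts as itself on torsion points. -/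
theorem smul_point_of_scalar {g : GQ} {z : ZMod p} (h : (residualRep W p hΔ0).ρ g = z • 1)
    {x : PointQBar W} (hx : (p : ℤ) • x = 0) : g • x = z.val • x := by
  set v : (residualRep W p hΔ0).V := ⟨x, (Submodule.mem_torsionBy_iff _ _).mpr hx⟩
  have e := LinearMap.congr_fun h v
  rw [LinearMap.smul_apply, Module.End.one_apply, ← ZMod.natCast_zmod_val z,
    Nat.cast_smul_eq_nsmul] at e
  exact congrArg Subtype.val e

variable (hA : A.LiesOverPrime p) (hp2 : p ≠ 2) (hΔ : (p : ℤ) ∣ W.Δ) (hc₄ : ¬ (p : ℤ) ∣ W.c₄)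
include hA hp2 hΔ hc₄

/-- Inertia elements act by scalars only when the cyclotomic value is one. -/
theorem cyclotomic_eq_one_of_scalar {g : GQ} (hg : g ∈ A.inertiaSubgroupIn ℚ) {z : ZMod p}
    (h : (residualRep W p hΔ0).ρ g = z • 1) :
    (cyclotomicHom p g : ZMod p) = 1 ∧ z = 1 := by
  obtain ⟨⟨F⟩, htr⟩ := exists_frame hA hp2 hΔ0 hΔ hc₄
  set χ := (cyclotomicHom p g : ZMod p)
  have hz : z = χ := by
    have e : z.val • F.R = χ.val • F.R := by
      rw [← smul_point_of_scalar hΔ0 h F.hR, F.smul_R g hg]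
    by_contra hne
    refine F.R_ne (eq_zero_of_zsmul_eq_zero (p := p) (a := (z.val : ℤ) - χ.val)
      (by rw [← natCast_zsmul]; exact F.hR) ?_ ?_)
    · push_cast
      rw [ZMod.natCast_zmod_val, ZMod.natCast_zmod_val]
      exact sub_ne_zero.mpr hne
    · rw [sub_eq_add_neg, add_zsmul, neg_zsmul, natCast_zsmul, natCast_zsmul, e, add_neg_cancel]
  have ht := htr g hg
  rw [h, map_smul, LinearMap.trace_one, (residualRep W p hΔ0).finrank_eq, smul_eq_mul, hz] at ht
  have hχ : χ = 1 := by push_cast at ht; linear_combination ht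
  exact ⟨hχ, hz.trans hχ⟩

/-- An element of `tameKer` moving a torsion point is not a scalar. -/
theorem not_scalar_of_moved {g : GQ} (hg : g ∈ A.inertiaSubgroupIn ℚ) {x : PointQBar W}
    (hx : (p : ℤ) • x = 0) (hne : g • x ≠ x) (z : ZMod p) :
    (residualRep W p hΔ0).ρ g ≠ z • 1 := by
  intro h
  have hz := (cyclotomic_eq_one_of_scalar hΔ0 hA hp2 hΔ hc₄ hg h).2
  rw [hz, one_smul] at h
  exact hne (congrArg Subtype.val
    (LinearMap.congr_fun h ⟨x, (Submodule.mem_torsionBy_iff _ _).mpr hx⟩))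

/-- Conjugation by `τ` raises `σ` to the cyclotomic value of `τ` on `E[p]`. -/
theorem residualRep_conj_eq_one {σ τ : GQ} (hσ : σ ∈ tameKer A p)
    (hτ : τ ∈ A.inertiaSubgroupIn ℚ) :
    (residualRep W p hΔ0).ρ ((σ ^ (cyclotomicHom p τ : ZMod p).val * τ)⁻¹ * (τ * σ)) = 1 := by
  obtain ⟨⟨F⟩, -⟩ := exists_frame hA hp2 hΔ0 hΔ hc₄
  set c := (cyclotomicHom p τ : ZMod p).val with hc
  refine residualRep_eq_one_of_forall hΔ0 fun x hx => ?_
  obtain ⟨b, hb⟩ := F.smul_S σ (mem_tameKer.mp hσ).1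
  obtain ⟨t, ht⟩ := F.smul_S τ hτ
  have hσR := F.smul_R_of_mem hσ
  have hτR : τ • F.R = c • F.R := F.smul_R τ hτ
  have hσcR : σ ^ c • F.R = F.R := F.smul_R_of_mem (pow_mem hσ c)
  obtain ⟨a₁, a₂, rfl⟩ := F.span x hx
  rw [mul_smul, inv_smul_eq_iff, mul_smul, mul_smul]
  simp only [smul_add_point, smul_zsmul_point, hσR, hb, hτR, smul_nsmul_point, hσcR, ht,
    F.pow_smul_S hσ hb]
  rw [← natCast_zsmul F.R c]
  simp only [zsmul_add, smul_smul]
  rw [mul_comm b (c : ℤ)]
  abel

end Fermat.Agent.RT.MazurP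

end
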