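import Fermat.Agent.RT.MazurP.Endgame.Change
import Fermat.Agent.RT.MazurP.Endgame.Local
import Fermat.Agent.RT.MazurP.Units
import Fermat.Agent.GaloisReps.Models

/-!
# Eigen torsion at level `p M₀` of a finite residual representation gives a form of level `M₀`
-/

set_option autoImplicit false
set_option synthInstance.maxHeartbeats 400000
set_option maxHeartbeats 1000000
set_option linter.unusedSectionVars false

open scoped WeierstrassCurve.Affine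
open WeierstrassCurve WeierstrassCurve.Affine

noncomputable section

namespace Fermat.Agent.RT.MazurP

open ModularCurve AlgebraicCurve Fermat.Agent.Semistable Fermat.Agent.Arith
open Fermat.Agent.RT.Mazur Fermat.Agent.EC.Rep

variable {A : ValuationSubring QBar} {p : ℕ} [Fact p.Prime] {W : WeierstrassCurve ℤ}

/-- The relation of inertia elements over `p` on a stable piece of eigen torsion. -/
theorem quad_of_inertia (hA : A.LiesOverPrime p) (hp2 : p ≠ 2) (hΔ0 : W.Δ ≠ 0)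
    (hΔ : (p : ℤ) ∣ W.Δ) (hc₄ : ¬ (p : ℤ) ∣ W.c₄) {N : ℕ} [NeZero N] {S : Finset ℕ}
    {a : ℕ → ZMod p} (hS : ∀ ℓ : ℕ, ℓ.Prime → ℓ ∉ S → ¬ ℓ ∣ N * p ∧ W.IsGoodPrimeFor ℓ ∧
      (W.apOfModel ℓ : ZMod p) = a ℓ)
    {g : GQ} (hg : g ∈ A.inertiaSubgroupIn ℚ) {x : JZero N} (hx : x ∈ LowerQ.EigTors N p S a) :
    g • g • x - (((cyclotomicHom p g : ZMod p).val : ℤ) + 1) • (g • x) +
      ((cyclotomicHom p g : ZMod p).val : ℤ) • x = 0 := by
  have hES : GaloisReps.CongruenceProperty N p := GaloisReps.congruenceProperty N p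
  obtain ⟨-, htr⟩ := exists_frame hA hp2 hΔ0 hΔ hc₄
  have h := quad_of_mem_eigTors hΔ0 hES S a hS g hx
  have hp0 := (LowerQ.mem_eigTors.mp hx).1
  have hpg : p • (g • x) = 0 := by
    exact (map_nsmul (DistribSMul.toAddMonoidHom (JZero N) g) p x).symm.trans (by rw [hp0, map_zero])
  rw [htr g hg, det_residualRep hΔ0 (card_rootsOfUnity_qbar p) g, ← cyclotomicHom_apply] at h
  rw [val_nsmul_eq hpg (t := (cyclotomicHom p g : ZMod p) + 1)
      (b := ((cyclotomicHom p g : ZMod p).val : ℤ) + 1)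
      (by push_cast; rw [ZMod.natCast_zmod_val]),
    ← natCast_zsmul x] at h
  exact h

variable {M₀ : ℕ} [NeZero M₀]

set_option maxHeartbeats 4000000 in
/-- **Mazur's principle at `p`.** At a multiplicative prime `p ≥ 5` with `p ∣ v(Δ)`, eigen torsion
of level `p M₀` of `E[p]` gives a congruent form of level `M₀`. -/
theorem hasForm_of_eigTors (hp5 : 5 ≤ p) (hΔ0 : W.Δ ≠ 0) (hΔ : (p : ℤ) ∣ W.Δ)
    (hc₄ : ¬ (p : ℤ) ∣ W.c₄) (hv : p ∣ padicValInt p W.Δ) (hirr : W.ModRepIsIrreducible p)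
    (hpM₀ : ¬ p ∣ M₀) (S : Finset ℕ)
    (hS : ∀ ℓ : ℕ, ℓ.Prime → ℓ ∉ S → ¬ ℓ ∣ 2 * (p * M₀) ∧ W.IsGoodPrimeFor ℓ)
    (hne : LowerQ.EigTors (p * M₀) p S (fun ℓ => (W.apOfModel ℓ : ZMod p)) ≠ ⊥) :
    HasForm p M₀ (· ∉ S) fun l => W.apOfModel l := by
  classical
  have hp : p.Prime := Fact.out
  have hp2 : p ≠ 2 := by omega
  obtain ⟨A, hA⟩ := Arith.exists_liesOverPrime hp
  set M := 4 * M₀ with hM4
  have : NeZero M := ⟨mul_ne_zero (by norm_num) (NeZero.ne M₀)⟩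
  have hd : M₀ ∣ M := dvd_mul_left _ _
  have hpM : ¬ p ∣ M := by
    rw [hM4, hp.dvd_mul]
    rintro (h | h)
    · have := Nat.le_of_dvd (by norm_num) h
      omega
    · exact hpM₀ h
  have hchar : CharP (Res A) p := residueField_charP hA hp
  have hM : (M : Res A) ≠ 0 := fun h => hpM ((CharP.cast_eq_zero_iff (Res A) p M).mp h)
  have : FF.IsFunctionField (Res A) (KM A M) :=
    RedTorsion.isFunctionField_full (K := Res A) (N := M) (F := KM A M) rfl hM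
  obtain ⟨V⟩ := exists_vUnit hA hM hpM
  have hV : V.Simple := VUnit.simple hA hM ⟨M₀, hM4⟩ V
  -- primes outside `S`
  have hSM : ∀ l, l.Prime → l ∉ S → ¬ l ∣ p * M := by
    intro l hl hlS h
    refine (hS l hl hlS).1 ?_
    rw [hM4, show p * (4 * M₀) = 2 * (2 * (p * M₀)) by ring] at h
    rcases hl.dvd_mul.mp h with h | h
    · exact h.mul_right _
    · exact h
  have hS' : ∀ ℓ : ℕ, ℓ.Prime → ℓ ∉ S → ¬ ℓ ∣ p * M₀ * p ∧ W.IsGoodPrimeFor ℓ ∧
      (W.apOfModel ℓ : ZMod p) = (W.apOfModel ℓ : ZMod p) := by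
    intro ℓ hℓ hℓS
    refine ⟨fun h => (hS ℓ hℓ hℓS).1 ?_, (hS ℓ hℓ hℓS).2, rfl⟩
    rcases hℓ.dvd_mul.mp h with h | h
    · exact h.mul_left 2
    · exact (h.mul_right M₀).mul_left 2
  obtain ⟨l₀, hl₀, hl₀S, -, -, hl₀ne⟩ := exists_apOfModel_ne hp2 hirr hΔ0 S
  have : NeZero l₀ := ⟨hl₀.ne_zero⟩
  rw [add_comm] at hl₀ne
  obtain ⟨U, hUle, hU0, hUst, hUker, hUscal⟩ := exists_eigen_submodule hΔ0 hirr hp2
    (GaloisReps.congruenceProperty (p * M₀) p) S (fun ℓ => (W.apOfModel ℓ : ZMod p)) hS' hne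
  have hUp : ∀ x ∈ U, p • x = 0 := fun x hx => (LowerQ.mem_eigTors.mp (hUle hx)).1
  have hquad : ∀ g ∈ A.inertiaSubgroupIn ℚ, ∀ x ∈ U,
      g • g • x - (((cyclotomicHom p g : ZMod p).val : ℤ) + 1) • (g • x) +
        ((cyclotomicHom p g : ZMod p).val : ℤ) • x = 0 :=
    fun g hg x hx => quad_of_inertia hA hp2 hΔ0 hΔ hc₄ hS' hg (hUle hx)
  have hwfix : ∀ g ∈ wildKer A W p, ∀ x ∈ U, g • x = x := fun g hg =>
    hUker g (residualRep_eq_one_of_forall hΔ0 (mem_wildKer.mp hg).2)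
  have hprim' : ∀ {t : GQ}, (∀ j : ℕ, (cyclotomicHom p t : ZMod p) ^ j = 1 → p - 1 ∣ j) →
      (cyclotomicHom p t : ZMod p) ^ 2 ≠ 1 := fun ht h => by
    have := Nat.le_of_dvd two_pos (ht 2 h)
    omega
  rcases wildKer_eq_tameKer_or_exists_wild hA hp2 hΔ0 hΔ hc₄ hv with heq | ⟨Wd, hH, hH₁, hmove, hgen⟩
  · -- tame: a class fixed by inertia
    obtain ⟨τ₀, hτ₀, hprim, -, hgen₀⟩ := exists_tame_generator (p := p) hA
    set c := (cyclotomicHom p τ₀ : ZMod p).val with hc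
    have hscal : ∀ z : ZMod p, (residualRep W p hΔ0).ρ τ₀ ≠ z • 1 := fun z h =>
      hprim' hprim (by rw [(cyclotomic_eq_one_of_scalar hΔ0 hA hp2 hΔ hc₄ hτ₀ h).1, one_pow])
    obtain ⟨y, hyU, hy0, hyτ⟩ := exists_fixed_of_quad U hUst (c := (c : ℤ)) (hquad τ₀ hτ₀)
      (hUscal τ₀ hscal c)
    have hyI : ∀ τ ∈ (unramField (p := p) hA).H, τ • y = y := by
      intro τ hτ
      obtain ⟨i, hi⟩ := hgen₀ τ hτ
      have hpow : ∀ n : ℕ, τ₀ ^ n • y = y := fun n => by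
        induction n with
        | zero => rw [pow_zero, one_smul]
        | succ n ih => rw [pow_succ, mul_smul, hyτ, ih]
      rw [← mul_inv_cancel_left (τ₀ ^ i) τ, mul_smul, hwfix _ (heq ▸ hi) y hyU, hpow]
    obtain ⟨f, hfy, -, -, K, hKf, hKrel⟩ :=
      exists_kum_of_eigen (hpM := hpM) hA hM hd (unramField hA) hSM (hUle hyU) hyI
    have hdiv := K.dvd_of_heckeRel (by simpa using hp.ne_one) V hA hM hV hl₀ (hSM l₀ hl₀ hl₀S)
      (hKrel l₀ hl₀ hl₀S) hl₀ne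
    rcases K.hasForm_or_normalised hA hM V hV hM4 hp5 hd hKf hdiv (· ∉ S) _ hSM hKrel with
      h | ⟨K', hfb, hv0, k, h', hk, hh', -, he⟩
    · exact h
    refine absurd ?_ hy0
    rw [← hfy]
    exact eq_zero_of_normalised (Or.inl rfl) hp5 hA hM hM4 V hV f K' hfb hv0 hk hh' hd
      (by rw [he, hKf])
  · -- wild
    obtain ⟨⟨F⟩, -⟩ := exists_frame hA hp2 hΔ0 hΔ hc₄
    obtain ⟨C', τ, he', hτ, hle', hτC', hprim, hgen'⟩ := exists_oddField hA F Wd hH hH₁ hgen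
    set c := (cyclotomicHom p τ : ZMod p).val with hc
    have hccast : (c : ZMod p) = (cyclotomicHom p τ : ZMod p) := ZMod.natCast_zmod_val _
    have hσ : Wd.σ ∈ tameKer A p := hH₁ ▸ Wd.σ_mem
    have hχσ : (cyclotomicHom p Wd.σ : ZMod p).val = 1 := by
      rw [(mem_tameKer.mp hσ).2, Units.val_one, ZMod.val_one]
    obtain ⟨P, hP, hPne⟩ := hmove
    obtain ⟨x₁, hx₁U, hx₁⟩ := hUscal Wd.σ
      (not_scalar_of_moved hΔ0 hA hp2 hΔ hc₄ Wd.σ_mem_inertia hP hPne) 1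
    have hσq : ∀ x ∈ U, Wd.σ • Wd.σ • x - (2 : ℤ) • (Wd.σ • x) + x = 0 := fun x hx => by
      have h := hquad Wd.σ Wd.σ_mem_inertia x hx
      simpa [hχσ] using h
    obtain ⟨x, hxU, hxτ, hxσ⟩ := exists_moved_fixed U hUst hUp (σ := Wd.σ) (τ := τ) (c := c)
      (by rw [hccast]; exact Units.ne_zero _) (by rw [hccast]; exact hprim' hprim) (hquad τ hτ) hσq
      (fun z hz => by
        have h := hUker _ (residualRep_conj_eq_one hΔ0 hA hp2 hΔ hc₄ hσ hτ) z hz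
        rw [mul_smul, inv_smul_eq_iff, mul_smul, mul_smul] at h
        exact h)
      ⟨x₁, hx₁U, by rwa [one_zsmul] at hx₁⟩
    have hxC' : ∀ h ∈ C'.H, h • x = x := by
      intro h hh
      obtain ⟨i, hi⟩ := hgen' h hh
      have hpow : ∀ n : ℕ, τ ^ n • x = x := fun n => by
        induction n with
        | zero => rw [pow_zero, one_smul]
        | succ n ih => rw [pow_succ, mul_smul, hxτ, ih]
      rw [← mul_inv_cancel_left (τ ^ i) h, mul_smul, hwfix _ (hH ▸ hi) x hxU, hpow]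
    set x₀ := Wd.σ • x - x with hx₀
    have hx₀U : x₀ ∈ U := U.sub_mem (hUst _ x hxU) hxU
    have hσx₀ : Wd.σ • x₀ = x₀ := by
      have h := hσq x hxU
      rw [hx₀, smul_sub, ← sub_eq_zero, ← h, two_zsmul]
      abel
    have hx₀C₁ : ∀ h ∈ Wd.C₁.H, h • x₀ = x₀ := by
      intro h hh
      obtain ⟨i, hi⟩ := hgen h (hH₁ ▸ hh)
      have hpow : ∀ n : ℕ, Wd.σ ^ n • x₀ = x₀ := fun n => by
        induction n with
        | zero => rw [pow_zero, one_smul]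
        | succ n ih => rw [pow_succ, mul_smul, hσx₀, ih]
      rw [← mul_inv_cancel_left (Wd.σ ^ i) h, mul_smul, hwfix _ hi x₀ hx₀U, hpow]
    obtain ⟨f₀, hf₀x, hf₀lead, hf₀fix, K₀, hK₀f, hK₀rel⟩ :=
      exists_kum_of_eigen (hpM := hpM) hA hM hd Wd.C₁ hSM (hUle hx₀U) hx₀C₁
    have hp1 : ¬ p ∣ p - 1 := fun h => by
      have := Nat.le_of_dvd (by omega) h
      omega
    have hdiv₀ := K₀.dvd_of_heckeRel (by rw [Wd.e₁_eq]; exact hp1) V hA hM hV hl₀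
      (hSM l₀ hl₀ hl₀S) (hK₀rel l₀ hl₀ hl₀S) hl₀ne
    rcases K₀.hasForm_or_normalised hA hM V hV hM4 hp5 hd hK₀f hdiv₀ (· ∉ S) _ hSM hK₀rel with
      h | ⟨K₀', hfb₀, hv₀, k₀, h₀, hk₀, hh₀, hh₀fix, he₀⟩
    · exact h
    obtain ⟨f, hfx, hflead, hffix, K₁, hK₁f, hK₁rel⟩ :=
      exists_kum_of_eigen (hpM := hpM) hA hM hd C' hSM (hUle hxU) hxC'
    obtain ⟨K, hKf⟩ := Kum.exists_of (hpM := hpM) (C := Wd.C) hA hM K₁.f_ne K₁.dvd
      fun h hh => K₁.fix h (hle' hh)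
    obtain ⟨g, hg0, hgfix, hgrel⟩ := exists_sigma_root (σ := Wd.σ) Wd.normal f f₀ hflead hf₀lead
      (fun h hh => hffix h (hle' hh)) (fun h hh => hf₀fix h (Wd.le hh))
      (by rw [hfx, hf₀x, hx₀, add_sub_cancel])
    set G := inclF (mul_dvd_mul_left p hd) g with hG
    obtain ⟨R, hR⟩ := SigmaRel.exists_of K hA K₀' hfb₀ hv₀ (κ := k₀⁻¹) (inv_ne_zero hk₀)
      (q := G / h₀)
      (fun h hh => by rw [map_div₀, hG, galF_inclF, hgfix h hh, hh₀fix h (Wd.le hh)])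
      (by
        have hk : algebraMap QBar (FB (p * M)) k₀ ≠ 0 := (_root_.map_ne_zero _).mpr hk₀
        rw [hKf, hK₁f, galF_inclF, hgrel, map_mul, map_mul, map_pow, he₀, hK₀f, map_inv₀, div_pow,
          ← hG]
        field_simp)
    have hrelK : HeckeRel (p * M) p l₀ K.f (W.apOfModel l₀) := hKf ▸ hK₁rel l₀ hl₀ hl₀S
    have hrelR : HeckeRel (p * M) p l₀ R.f₀ (W.apOfModel l₀) := by
      rw [hR, he₀]
      exact (hK₀rel l₀ hl₀ hl₀S).scale hl₀ (hSM l₀ hl₀ hl₀S) hk₀ hh₀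
    have hdiv := K.dvd_of_field K₁ hKf (k := p - 1)
      (by rw [Wd.e_eq, he', mul_comm]) hp1
      (R.dvd_of_heckeRel V hA hM hV hl₀ (hSM l₀ hl₀ hl₀S) hrelK hrelR hl₀ne)
    rcases K₁.hasForm_or_normalised hA hM V hV hM4 hp5 hd hK₁f hdiv (· ∉ S) _ hSM hK₁rel with
      h | ⟨K', hfb, hv0, k, h', hk, hh', -, he⟩
    · exact h
    refine absurd ?_ (fun h0 : x = 0 => hxσ (by rw [h0, smul_zero]))
    rw [← hfx]
    exact eq_zero_of_normalised (Or.inr he') hp5 hA hM hM4 V hV f K' hfb hv0 hk hh' hd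
      (by rw [he, hK₁f])

end Fermat.Agent.RT.MazurP

end
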