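import Fermat.Agent.RT.MazurP.Torsion
import Fermat.Agent.RT.LowerQ.Classes

/-!
# Inertia on a module of `p`-torsion with quadratic relations

The two ways of finding a nonzero class fixed by a large part of inertia.
-/

set_option autoImplicit false
set_option synthInstance.maxHeartbeats 400000

noncomputable section

namespace Fermat.Agent.RT.MazurP

section Generic

variable {Γ G : Type*} [Group Γ] [AddCommGroup G] [DistribMulAction Γ G] {p : ℕ} [Fact p.Prime]

theorem smul_zsmul_comm' (g : Γ) (n : ℤ) (x : G) : g • (n • x) = n • (g • x) :=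
  map_zsmul (DistribSMul.toAddMonoidHom G g) n x

theorem zsmul_eq_of_cast_eq {x : G} (hx : p • x = 0) {a b : ℤ} (h : (a : ZMod p) = b) :
    a • x = b • x := by
  obtain ⟨c, hc⟩ := (ZMod.intCast_eq_intCast_iff_dvd_sub a b p).mp h
  rw [show b = a + c * p by linear_combination hc, add_zsmul, mul_zsmul, natCast_zsmul, hx,
    zsmul_zero, add_zero]

theorem val_nsmul_eq {x : G} (hx : p • x = 0) {t : ZMod p} {b : ℤ} (h : t = (b : ZMod p)) :
    t.val • x = b • x := by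
  rw [← natCast_zsmul]
  exact zsmul_eq_of_cast_eq hx (by rw [Int.cast_natCast, ZMod.natCast_val, ZMod.cast_id, h])

theorem eq_zero_of_zsmul_eq_zero {x : G} (hx : p • x = 0) {a : ℤ} (ha : (a : ZMod p) ≠ 0)
    (h : a • x = 0) : x = 0 := by
  obtain ⟨b, hb⟩ := ZMod.intCast_surjective ((a : ZMod p)⁻¹)
  rw [← one_zsmul x, zsmul_eq_of_cast_eq hx (a := 1) (b := b * a)
    (by push_cast; rw [hb, inv_mul_cancel₀ ha]), mul_zsmul, h, zsmul_zero]

variable (U : AddSubgroup G) (hst : ∀ g : Γ, ∀ x ∈ U, g • x ∈ U) (hp : ∀ x ∈ U, p • x = 0)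
include hst

/-- An element with eigenvalues `c ≠ 1` and `1` which is not `c` fixes a nonzero point. -/
theorem exists_fixed_of_quad {τ : Γ} {c : ℤ}
    (hq : ∀ x ∈ U, τ • τ • x - (c + 1) • (τ • x) + c • x = 0) (hne : ∃ x ∈ U, τ • x ≠ c • x) :
    ∃ y ∈ U, y ≠ 0 ∧ τ • y = y := by
  obtain ⟨x, hxU, hx⟩ := hne
  refine ⟨τ • x - c • x, U.sub_mem (hst τ x hxU) (U.zsmul_mem hxU c), sub_ne_zero.mpr hx, ?_⟩
  have e := hq x hxU
  rw [smul_sub, smul_zsmul_comm', ← sub_eq_zero, ← e, add_zsmul, one_zsmul]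
  abel

include hp

/-- A unipotent `σ` conjugated by `τ` into its `c`-th power moves some point fixed by `τ`. -/
theorem exists_moved_fixed {σ τ : Γ} {c : ℕ} (hc0 : (c : ZMod p) ≠ 0)
    (hc1 : (c : ZMod p) ^ 2 ≠ 1)
    (hτ : ∀ x ∈ U, τ • τ • x - ((c : ℤ) + 1) • (τ • x) + (c : ℤ) • x = 0)
    (hσ : ∀ x ∈ U, σ • σ • x - (2 : ℤ) • (σ • x) + x = 0)
    (hcomm : ∀ x ∈ U, τ • σ • x = σ ^ c • τ • x) (hne : ∃ x ∈ U, σ • x ≠ x) :
    ∃ x ∈ U, τ • x = x ∧ σ • x ≠ x := by
  by_contra hall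
  push Not at hall
  have hc1' : (c : ZMod p) ≠ 1 := fun h => hc1 (by rw [h, one_pow])
  have hN : ∀ x ∈ U, σ • (σ • x - x) = σ • x - x := fun x hx => by
    have e := hσ x hx
    rw [smul_sub, ← sub_eq_zero, ← e, two_zsmul]
    abel
  have hpow : ∀ (n : ℕ), ∀ x ∈ U, σ ^ n • x = x + (n : ℤ) • (σ • x - x) := by
    intro n x hx
    induction n with
    | zero => simp
    | succ n ih =>
      rw [pow_succ', mul_smul, ih, smul_add, smul_zsmul_comm', hN x hx]
      push_cast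
      rw [add_zsmul, one_zsmul]
      abel
  have hA : ∀ z ∈ U, τ • z = (c : ℤ) • z → σ • z = z := by
    intro z hz hτz
    set w := σ • z - z
    have hw : w ∈ U := U.sub_mem (hst σ z hz) hz
    have e1 : τ • w = ((c : ℤ) ^ 2) • w := by
      simp only [w]
      rw [smul_sub, hcomm z hz, hτz, hpow c _ (U.zsmul_mem hz _), smul_zsmul_comm', ← zsmul_sub,
        smul_smul, ← pow_two]
      abel
    have e2 := hτ w hw
    rw [e1, smul_zsmul_comm', e1, smul_smul, smul_smul, sub_eq_add_neg, ← neg_zsmul, ← add_zsmul,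
      ← add_zsmul] at e2
    refine sub_eq_zero.mp (eq_zero_of_zsmul_eq_zero (hp w hw) ?_ e2)
    push_cast
    rw [show (c : ZMod p) ^ 2 * (c : ZMod p) ^ 2 + -(((c : ZMod p) + 1) * (c : ZMod p) ^ 2) + c =
      ((c : ZMod p) ^ 2 - 1) * ((c : ZMod p) * ((c : ZMod p) - 1)) by ring]
    exact mul_ne_zero (sub_ne_zero.mpr hc1) (mul_ne_zero hc0 (sub_ne_zero.mpr hc1'))
  obtain ⟨x, hxU, hx⟩ := hne
  refine hx (sub_eq_zero.mp (eq_zero_of_zsmul_eq_zero (hp _ (U.sub_mem (hst σ x hxU) hxU))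
    (a := (c : ℤ) - 1) (by push_cast; exact sub_ne_zero.mpr hc1') ?_))
  set y₁ := τ • x - (c : ℤ) • x
  set y₂ := τ • x - x
  have h1 : σ • y₁ = y₁ := by
    refine hall y₁ (U.sub_mem (hst τ x hxU) (U.zsmul_mem hxU _)) ?_
    have e := hτ x hxU
    simp only [y₁]
    rw [smul_sub, smul_zsmul_comm', ← sub_eq_zero, ← e, add_zsmul, one_zsmul]
    abel
  have h2 : σ • y₂ = y₂ := by
    refine hA y₂ (U.sub_mem (hst τ x hxU) hxU) ?_
    have e := hτ x hxU
    simp only [y₂]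
    rw [smul_sub, zsmul_sub, ← sub_eq_zero, ← e, add_zsmul, one_zsmul]
    abel
  have e : ((c : ℤ) - 1) • x = y₂ - y₁ := by
    simp only [y₁, y₂]
    rw [sub_zsmul, one_zsmul]
    abel
  rw [zsmul_sub, ← smul_zsmul_comm', e, smul_sub, h1, h2, sub_self]

end Generic

end Fermat.Agent.RT.MazurP

end
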