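import Fermat.Agent.RT.MazurP.Endgame.Main
import Fermat.Agent.RT.LowerQ.EigenTorsion
import Fermat.Agent.RT.LowerQ.Curve

/-!
# Lowering the level at a multiplicative prime `p ≥ 5` at which `E[p]` is finite
-/

set_option autoImplicit false
set_option synthInstance.maxHeartbeats 400000
set_option maxHeartbeats 1000000

noncomputable section

namespace Fermat.Agent.RT.MazurP

open CongruenceSubgroup

variable {p : ℕ} [Fact p.Prime] {W : WeierstrassCurve ℤ}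

/-- A form congruent to integers gives a congruent level. -/
theorem isCongruentLevel_of_hasForm {S : Finset ℕ} {M : ℕ} {a : ℕ → ℤ}
    (h : HasForm p M (· ∉ S) a) : IsCongruentLevel S (fun l => (a l : ZMod p)) M := by
  obtain ⟨g, hg, 𝔪, h𝔪, hp𝔪, hcong⟩ := h
  let : Field (integralClosure ℤ ℂ ⧸ 𝔪) := Ideal.Quotient.field 𝔪
  have hpF : CharP (integralClosure ℤ ℂ ⧸ 𝔪) p := by
    refine (CharP.charP_iff_prime_eq_zero (Fact.out : p.Prime)).mpr ?_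
    rw [← map_natCast (Ideal.Quotient.mk 𝔪), Ideal.Quotient.eq_zero_iff_mem]
    exact hp𝔪
  let : Algebra (ZMod p) (integralClosure ℤ ℂ ⧸ 𝔪) := ZMod.algebra _ p
  have : Algebra.IsIntegral ℤ (integralClosure ℤ ℂ ⧸ 𝔪) := inferInstance
  have : Algebra.IsIntegral (ZMod p) (integralClosure ℤ ℂ ⧸ 𝔪) :=
    ⟨fun x => (Algebra.IsIntegral.isIntegral (R := ℤ) x).tower_top⟩
  let j : (integralClosure ℤ ℂ ⧸ 𝔪) →ₐ[ZMod p] AlgebraicClosure (ZMod p) := IsAlgClosed.lift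
  refine ⟨g, hg, j.toRingHom.comp (Ideal.Quotient.mk 𝔪), fun ℓ hℓ hℓS b hb => ?_⟩
  obtain ⟨c, hc, hcm⟩ := hcong ℓ hℓ hℓS
  rw [show b = c from Subtype.ext (hb.trans hc.symm), RingHom.comp_apply,
    (Ideal.Quotient.mk_eq_mk_iff_sub_mem _ _).mpr hcm, map_intCast, map_intCast, map_intCast]

/-- **Level lowering at `p`.** -/
theorem isCongruentLevel_lowerAtMult (hp5 : 5 ≤ p) (hΔ0 : W.Δ ≠ 0) (hΔ : (p : ℤ) ∣ W.Δ)
    (hc₄ : ¬ (p : ℤ) ∣ W.c₄) (hv : p ∣ padicValInt p W.Δ) (hirr : W.ModRepIsIrreducible p)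
    {M₀ : ℕ} [NeZero M₀] (hpM₀ : ¬ p ∣ M₀) {S : Finset ℕ}
    (hS : ∀ ℓ : ℕ, ℓ.Prime → ℓ ∉ S → ¬ ℓ ∣ 2 * (p * M₀) ∧ W.IsGoodPrimeFor ℓ)
    (h : IsCongruentLevel S (fun l => (W.apOfModel l : ZMod p)) (p * M₀)) :
    IsCongruentLevel S (fun l => (W.apOfModel l : ZMod p)) M₀ :=
  isCongruentLevel_of_hasForm
    (hasForm_of_eigTors hp5 hΔ0 hΔ hc₄ hv hirr hpM₀ S hS
      (LowerQ.eigTors_ne_bot_of_isCongruentLevel h))

omit [Fact p.Prime] in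
theorem mem_curveSet_two (hΔ0 : W.Δ ≠ 0) {N : ℕ} [NeZero N] (ℓ : ℕ) (hℓ : ℓ.Prime)
    (h : ℓ ∉ insert 2 (LowerQ.curveSet W p N)) :
    ¬ ℓ ∣ 2 * N ∧ W.IsGoodPrimeFor ℓ := by
  simp only [Finset.mem_insert, not_or] at h
  refine ⟨fun hd => ?_, LowerQ.isGoodPrimeFor_of_not_mem_curveSet hΔ0 hℓ h.2⟩
  rcases hℓ.dvd_mul.mp hd with hd | hd
  · exact h.1 ((Nat.prime_dvd_prime_iff_eq hℓ Nat.prime_two).mp hd)
  · exact h.2 (LowerQ.dvd_mem_curveSet hΔ0 hℓ hd)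

/-- Level lowering at `p` in terms of residual modularity. -/
theorem isResiduallyModular_lowerAtMult (hp5 : 5 ≤ p) (hΔ0 : W.Δ ≠ 0) (hΔ : (p : ℤ) ∣ W.Δ)
    (hc₄ : ¬ (p : ℤ) ∣ W.c₄) (hv : p ∣ padicValInt p W.Δ) (hirr : W.ModRepIsIrreducible p)
    {M₀ : ℕ} [NeZero M₀] (hpM₀ : ¬ p ∣ M₀) (h : W.IsResiduallyModularOfLevel p (p * M₀)) :
    W.IsResiduallyModularOfLevel p M₀ := by
  classical
  obtain ⟨g, hg, φ, hφ⟩ :=
    LowerQ.isCongruentLevel_of_isResiduallyModular (k := ZMod p) hΔ0 h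
  exact LowerQ.isResiduallyModular_of_isCongruentLevel (k := ZMod p) hΔ0
    (isCongruentLevel_lowerAtMult hp5 hΔ0 hΔ hc₄ hv hirr hpM₀ (mem_curveSet_two hΔ0)
      ⟨g, hg, φ, fun ℓ hℓ hℓS => hφ ℓ hℓ fun hm => hℓS (Finset.mem_insert_of_mem hm)⟩)

end Fermat.Agent.RT.MazurP

end
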