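import Fermat.Agent.RT.MazurP.Endgame.Basic
import Fermat.Agent.RT.MazurP.Lift
import Fermat.Agent.RT.MazurP.Eigen

/-!
# Classes with divisible orders: a form of level `M₀` or trivial reductions
-/

set_option autoImplicit false
set_option synthInstance.maxHeartbeats 400000
set_option maxHeartbeats 1000000
set_option linter.unusedSectionVars false

noncomputable section

namespace Fermat.Agent.RT.MazurP

open ModularCurve AlgebraicCurve Fermat.Agent.Semistable Fermat.Agent.Arith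
open Fermat.Agent.RT.Mazur CongruenceSubgroup

/-- Some eigenform of level `M₀` is congruent to `a` at the primes in `G`. -/
def HasForm (p M₀ : ℕ) (G : ℕ → Prop) (a : ℕ → ℤ) : Prop :=
  ∃ (g : CuspForm (Gamma0 M₀) 2) (_ : g.IsNormalizedEigenform)
    (𝔪 : Ideal (integralClosure ℤ ℂ)), 𝔪.IsMaximal ∧ ((p : ℕ) : integralClosure ℤ ℂ) ∈ 𝔪 ∧
    ∀ l, l.Prime → G l → ∃ c : integralClosure ℤ ℂ,
      (c : ℂ) = ModularFormClass.qCoeff g l ∧ c - (a l : integralClosure ℤ ℂ) ∈ 𝔪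

variable {A : ValuationSubring QBar} {p M M₀ : ℕ} [Fact p.Prime] [NeZero M] [NeZero M₀]
  {hpM : ¬ p ∣ M} [CharP (Res A) p] [FF.IsFunctionField (Res A) (KM A M)] {C : CoefField A p}

theorem natCast_ne_zero_of_dvd (hM : (M : Res A) ≠ 0) (h : M₀ ∣ M) : (M₀ : Res A) ≠ 0 := fun h0 =>
  hM (by obtain ⟨d, rfl⟩ := h; rw [Nat.cast_mul, h0, zero_mul])

/-- The reductions of a function of level `p M₀` are functions of level `M₀`. -/
theorem Kum.fb_mem_KM (K : Kum hpM C) (hA : A.LiesOverPrime p) (hM : (M : Res A) ≠ 0)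
    (hd : M₀ ∣ M) {f : FB (p * M₀)} (hf : K.f = inclF (mul_dvd_mul_left p hd) f) (s : Fin 2) :
    (K.fb s : LaurentSeries (Res A)) ∈ KM A M₀ := by
  have hpM₀ : ¬ p ∣ M₀ := fun h => hpM (h.trans hd)
  obtain ⟨h, e⟩ := K.spec s
  have e' : iota2 M p hpM s K.f = iota2 M₀ p hpM₀ s f := by rw [hf]; exact iota2_inclF hd hpM₀ s f
  exact isRed_mem_KM p M₀ hpM₀ hA (natCast_ne_zero_of_dvd hM hd) (x := f) (s := s)
    ⟨fun h0 => K.fb_ne s (Subtype.ext h0), _, zpow_ne_zero _ C.π_ne_zero, e' ▸ h,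
      (redL_congr _ h (by rw [e'])).trans e⟩

/-- A nonzero logarithmic derivative of a reduction gives a form of level `M₀`. -/
theorem Kum.hasForm_of_dlog_ne_zero (K : Kum hpM C) (hA : A.LiesOverPrime p)
    (hM : (M : Res A) ≠ 0) (hM4 : M = 4 * M₀) (hp5 : 5 ≤ p) (hd : M₀ ∣ M) {f : FB (p * M₀)}
    (hf : K.f = inclF (mul_dvd_mul_left p hd) f)
    (hdiv : ∀ P, (p : ℤ) ∣ K.s₀ P ∧ (p : ℤ) ∣ K.t₀ P) (G : ℕ → Prop) (a : ℕ → ℤ)
    (hG : ∀ l, l.Prime → G l → ¬ l ∣ p * M)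
    (hrel : ∀ (l : ℕ) [NeZero l], l.Prime → G l → HeckeRel (p * M) p l K.f (a l))
    {s : Fin 2} (hs : dlog (K.fb s : LaurentSeries (Res A)) ≠ 0) : HasForm p M₀ G a := by
  have := residueField_isAlgClosed A
  have hmem : dlog (K.fb s : LaurentSeries (Res A)) ∈ redLattice A M₀ :=
    dlog_mem_redLattice (p := p) hM4 hp5 hA hM (fun h0 => K.fb_ne s (Subtype.ext h0))
      (K.fb_mem_KM hA hM hd hf s) (K.fb s).2 fun P => by
        fin_cases s
        · exact (hdiv P).1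
        · exact (hdiv P).2
  refine exists_eigenform_of_redLattice p hmem hs G
    (fun l hl hGl h => hG l hl hGl ((h.trans hd).mul_left p)) a fun l hl hGl n => ?_
  have : NeZero l := ⟨hl.ne_zero⟩
  exact K.dlog_eigen hA hl (hG l hl hGl) (hrel l hl hGl) s n

/-- Vanishing logarithmic derivatives allow a normalisation with trivial reductions. -/
theorem Kum.exists_normalised (K : Kum hpM C) (hA : A.LiesOverPrime p) (hM : (M : Res A) ≠ 0)
    (V : VUnit A hpM) (hV : V.Simple) (hδ : (p : ℤ) ∣ K.δ)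
    (hs : ∀ s, dlog (K.fb s : LaurentSeries (Res A)) = 0) :
    ∃ K' : Kum hpM C, (∀ s, K'.fb s = 1) ∧ K'.v = 0 ∧
      ∃ (c : QBar) (h : FB (p * M)), c ≠ 0 ∧ h ≠ 0 ∧ (∀ τ ∈ C.H, galF (p * M) τ h = h) ∧
        K'.f = algebraMap QBar (FB (p * M)) c * K.f * h ^ p := by
  have hp : p.Prime := Fact.out
  choose g hg using fun s => exists_root_of_dlog_eq_zero hA hM (K.fb s) (hs s)
  have hg0 : ∀ s, g s ≠ 0 := fun s h0 => K.fb_ne s (by rw [← hg s, h0, zero_pow hp.ne_zero])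
  obtain ⟨d, hd⟩ := hδ
  obtain ⟨φ, hφ, hφfix, hφr⟩ := exists_fixed_pair hA hM V hV g hg0 d
  set c : QBar := C.π ^ (-K.v 0) with hcdef
  have hc : c ≠ 0 := zpow_ne_zero _ C.π_ne_zero
  have hfixc : ∀ τ ∈ C.H, τ c = c := fun τ hτ => by rw [hcdef, map_zpow₀, C.π_fixed τ hτ]
  set h : FB (p * M) := φ⁻¹
  have hfix : ∀ τ ∈ C.H, galF (p * M) τ h = h := fun τ hτ => by
    simp only [h, map_inv₀, hφfix τ hτ]
  set f' : FB (p * M) := algebraMap QBar (FB (p * M)) c * K.f * h ^ p with hf'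
  have hh : h ≠ 0 := inv_ne_zero hφ
  have hred : ∀ s, RedTo A (iota2 M p hpM s f') 1 := by
    intro s
    have hgs : (g s : LaurentSeries (Res A)) ≠ 0 := fun h0 => hg0 s (Subtype.ext h0)
    have hφs : RedTo A (algebraMap QBar LSer (C.π ^ (-(![0, d] s))) * iota2 M p hpM s φ)
        (g s : LaurentSeries (Res A)) := hφr s
    have h1 := (K.redTo s).mul ((hφs.pow p).inv (pow_ne_zero p hgs))
    have he : (K.fb s : LaurentSeries (Res A)) * ((g s : LaurentSeries (Res A)) ^ p)⁻¹ = 1 := by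
      rw [← SubmonoidClass.coe_pow, hg s, mul_inv_cancel₀ fun h0 => K.fb_ne s (Subtype.ext h0)]
    rw [he] at h1
    convert h1 using 1
    have hv : -K.v 0 = -K.v s + ![0, d] s * (p : ℤ) := by
      fin_cases s
      · simp
      · have : K.v 1 - K.v 0 = p * d := hd
        simp only [Fin.mk_one, Matrix.cons_val_one, Matrix.cons_val_fin_one]
        linarith
    simp only [hf', h, map_mul, map_pow, map_inv₀, AlgHom.commutes, mul_pow, mul_inv]
    rw [hcdef, hv, zpow_add₀ C.π_ne_zero, map_mul, zpow_mul, zpow_natCast, map_pow, zpow_neg _ (![0, d] s),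
      map_inv₀, ← inv_pow _⁻¹, inv_inv]
    ring
  refine ⟨{ f := f'
            f_ne := mul_ne_zero (mul_ne_zero ((_root_.map_ne_zero _).mpr hc) K.f_ne) (pow_ne_zero p hh)
            dvd := fun v => ?_
            fix := fun τ hτ => by
              simp only [hf', map_mul, map_pow, galF_const (hfixc τ hτ), K.fix τ hτ, hfix τ hτ]
            v := 0
            fb := 1
            fb_ne := fun _ => one_ne_zero
            spec := fun s => ?_ }, fun _ => rfl, rfl, c, h, hc, hh, hfix, rfl⟩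
  · rw [hf', v.ord_mul (mul_ne_zero ((_root_.map_ne_zero _).mpr hc) K.f_ne) (pow_ne_zero p hh),
      v.ord_mul ((_root_.map_ne_zero _).mpr hc) K.f_ne, FF.ord_algebraMap, zero_add, FF.ord_pow v]
    exact dvd_add (K.dvd v) (dvd_mul_right _ _)
  · obtain ⟨h', e'⟩ := hred s
    have e : algebraMap QBar LSer (C.π ^ (-(0 : Fin 2 → ℤ) s)) * iota2 M p hpM s f' =
        iota2 M p hpM s f' := by
      rw [Pi.zero_apply, neg_zero, zpow_zero, map_one, one_mul]
    exact ⟨by rw [e]; exact h', (redL_congr _ h' e).trans e'⟩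

/-- Divisible orders: a form of level `M₀`, or trivial reductions after normalising. -/
theorem Kum.hasForm_or_normalised (K : Kum hpM C) (hA : A.LiesOverPrime p)
    (hM : (M : Res A) ≠ 0) (V : VUnit A hpM) (hV : V.Simple) (hM4 : M = 4 * M₀) (hp5 : 5 ≤ p)
    (hd : M₀ ∣ M) {f : FB (p * M₀)} (hf : K.f = inclF (mul_dvd_mul_left p hd) f)
    (hdiv : (∀ P, (p : ℤ) ∣ K.s₀ P ∧ (p : ℤ) ∣ K.t₀ P) ∧ (p : ℤ) ∣ K.δ)
    (G : ℕ → Prop) (a : ℕ → ℤ) (hG : ∀ l, l.Prime → G l → ¬ l ∣ p * M)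
    (hrel : ∀ (l : ℕ) [NeZero l], l.Prime → G l → HeckeRel (p * M) p l K.f (a l)) :
    HasForm p M₀ G a ∨ ∃ K' : Kum hpM C, (∀ s, K'.fb s = 1) ∧ K'.v = 0 ∧
      ∃ (c : QBar) (h : FB (p * M)), c ≠ 0 ∧ h ≠ 0 ∧ (∀ τ ∈ C.H, galF (p * M) τ h = h) ∧
        K'.f = algebraMap QBar (FB (p * M)) c * K.f * h ^ p := by
  by_cases hall : ∀ s, dlog (K.fb s : LaurentSeries (Res A)) = 0
  · exact Or.inr (K.exists_normalised hA hM V hV hdiv.2 hall)
  · push Not at hall
    obtain ⟨s, hs⟩ := hall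
    exact Or.inl (K.hasForm_of_dlog_ne_zero hA hM hM4 hp5 hd hf hdiv.1 G a hG hrel hs)

end Fermat.Agent.RT.MazurP

end
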