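import Fermat.Agent.RT.MazurP.HeckeKum
import Fermat.Agent.RT.MazurP.Incl
import Fermat.Agent.RT.MazurP.Jump
import Fermat.Agent.RT.MazurP.Trivial.Main

/-!
# Series with a given reduction, and the relation data of a conjugation

`RedTo A x z` says that `x` lies in `locS A` and reduces to `z`. A conjugation relation between
Kummer functions with trivial fixed factor gives a `SigmaRel`.
-/

set_option autoImplicit false
set_option synthInstance.maxHeartbeats 400000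
set_option maxHeartbeats 1000000
set_option linter.unusedSectionVars false

noncomputable section

namespace Fermat.Agent.RT.MazurP

open ModularCurve AlgebraicCurve Fermat.Agent.Semistable Fermat.Agent.Arith
open Fermat.Agent.RT.Mazur

variable {A : ValuationSubring QBar}

/-- `x` is integral with reduction `z`. -/
def RedTo (A : ValuationSubring QBar) (x : LSer) (z : LaurentSeries (Res A)) : Prop :=
  ∃ h : x ∈ locS A, redL A ⟨x, h⟩ = z

namespace RedTo

variable {x y : LSer} {z w : LaurentSeries (Res A)}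

theorem mul (hx : RedTo A x z) (hy : RedTo A y w) : RedTo A (x * y) (z * w) := by
  obtain ⟨hx, rfl⟩ := hx
  obtain ⟨hy, rfl⟩ := hy
  exact ⟨mul_mem hx hy, redL_mul' hx hy⟩

theorem pow (hx : RedTo A x z) (n : ℕ) : RedTo A (x ^ n) (z ^ n) := by
  obtain ⟨hx, rfl⟩ := hx
  exact ⟨pow_mem hx n, redL_pow' hx n⟩

theorem inv (hx : RedTo A x z) (hz : z ≠ 0) : RedTo A x⁻¹ z⁻¹ := by
  obtain ⟨hx, rfl⟩ := hx
  exact inv_mem_locS hx hz

theorem const {a : QBar} (ha : a ∈ A) : RedTo A (algebraMap QBar LSer a)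
    (algebraMap (Res A) (LaurentSeries (Res A)) (IsLocalRing.residue A ⟨a, ha⟩)) :=
  ⟨_, redL_algebraMap ha⟩

theorem coeffMap {τ : GQ} (hτ : τ ∈ A.inertiaSubgroupIn ℚ) (hx : RedTo A x z) :
    RedTo A (ModularCurve.coeffMap (τ : QBar →+* QBar) x) z := by
  obtain ⟨hx, rfl⟩ := hx
  exact (isInertial_of_mem hτ).coeffMap_mem_locS hx

theorem eq (hx : RedTo A x z) (hy : RedTo A y w) (h : x = y) : z = w := by
  obtain ⟨hx, rfl⟩ := hx
  obtain ⟨hy, rfl⟩ := hy
  exact redL_congr hx hy h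

theorem isGUnit (hx : RedTo A x z) (hz : z ≠ 0) : IsGUnit A x := by
  obtain ⟨hx, rfl⟩ := hx
  exact ⟨hx, hz⟩

end RedTo

variable {p M : ℕ} [Fact p.Prime] [NeZero M] {hpM : ¬ p ∣ M}
  [CharP (Res A) p] [FF.IsFunctionField (Res A) (KM A M)]

theorem Kum.redTo {C : CoefField A p} (K : Kum hpM C) (s : Fin 2) :
    RedTo A (algebraMap QBar LSer (C.π ^ (-K.v s)) * iota2 M p hpM s K.f)
      (K.fb s : LaurentSeries (Res A)) :=
  K.spec s

/-- A fixed series with reduction one is one plus a multiple of the uniformiser. -/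
theorem CoefField.inv_π_mul_sub_one (C : CoefField A p) (hA : A.LiesOverPrime p) {x : LSer}
    (hx : RedTo A x 1) (hfix : C.Fix x) : algebraMap QBar LSer C.π⁻¹ * (x - 1) ∈ locS A := by
  obtain ⟨h, e⟩ := hx
  have hm : x - 1 ∈ locS A := (locS A).sub_mem h (locS A).one_mem
  refine C.inv_π_mul_mem hA hm (hfix.sub CoefField.fix_one) ?_
  have e2 : (⟨x - 1, hm⟩ : locS A) = ⟨x, h⟩ - 1 := Subtype.ext (by push_cast; rfl)
  rw [e2, map_sub, e, map_one, sub_self]

/-- Powers of the ratio of the uniformiser to its conjugate reduce to one. -/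
theorem Wild.exists_residue_ratio_zpow (Wd : Wild A p) (k : ℤ) :
    ∃ h : (Wd.C.π / Wd.σ Wd.C.π) ^ k ∈ A, IsLocalRing.residue A ⟨_, h⟩ = 1 := by
  have hσ := Wd.σ_mem_inertia
  have hσπ0 : Wd.σ Wd.C.π ≠ 0 := (map_ne_zero _).mpr Wd.C.π_ne_zero
  set ε : QBar := Wd.C.π / Wd.σ Wd.C.π with hεdef
  have hεv : A.valuation ε = 1 := by
    rw [hεdef, map_div₀, valuation_inertia hσ,
      div_self ((Valuation.ne_zero_iff _).mpr Wd.C.π_ne_zero)]
  have hεA : ε ∈ A := (A.valuation_le_one_iff _).mp hεv.le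
  have hεr : IsLocalRing.residue A ⟨ε, hεA⟩ = 1 := by
    obtain ⟨w, hw, hσπ⟩ := Wd.σ_π
    have hπA := mem_of_mem_nonunits Wd.C.π_nonunit
    set d : QBar := (Wd.u : QBar) * Wd.C.π + w * Wd.C.π ^ 2 with hd
    have hdnu : d ∈ A.nonunits := by
      rw [hd, show (Wd.u : QBar) * Wd.C.π + w * Wd.C.π ^ 2 = ((Wd.u : QBar) + w * Wd.C.π) * Wd.C.π by ring]
      exact nonunits_mul_left (add_mem Wd.u.2 (mul_mem hw hπA)) Wd.C.π_nonunit
    have e : ε * (1 + d) = 1 := by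
      have h1 : Wd.σ Wd.C.π = Wd.C.π * (1 + d) := by rw [hσπ, hd]; ring
      rw [hεdef, div_mul_eq_mul_div, ← h1, div_self hσπ0]
    have e' : (⟨ε, hεA⟩ : A) * (1 + ⟨d, mem_of_mem_nonunits hdnu⟩) = 1 := Subtype.ext e
    have e'' := congrArg (IsLocalRing.residue A) e'
    rwa [map_mul, map_add, map_one, (residue_eq_zero_iff _).mpr hdnu, add_zero, mul_one] at e''
  have hεi : ε⁻¹ ∈ A := (A.valuation_le_one_iff _).mp (by rw [map_inv₀, hεv, inv_one])
  have hεir : IsLocalRing.residue A ⟨ε⁻¹, hεi⟩ = 1 := by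
    have e : (⟨ε, hεA⟩ : A) * ⟨ε⁻¹, hεi⟩ = 1 := Subtype.ext (mul_inv_cancel₀
      ((Valuation.ne_zero_iff A.valuation).mp (by rw [hεv]; exact one_ne_zero)))
    have e' := congrArg (IsLocalRing.residue A) e
    rwa [map_mul, hεr, one_mul, map_one] at e'
  rcases Int.eq_nat_or_neg k with ⟨m, rfl | rfl⟩
  · refine ⟨by rw [zpow_natCast]; exact pow_mem hεA m, ?_⟩
    rw [show (⟨ε ^ (m : ℤ), _⟩ : A) = ⟨ε, hεA⟩ ^ m from Subtype.ext (zpow_natCast ε m),
      map_pow, hεr, one_pow]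
  · refine ⟨by rw [zpow_neg, zpow_natCast, ← inv_pow]; exact pow_mem hεi m, ?_⟩
    rw [show (⟨ε ^ (-(m : ℤ)), _⟩ : A) = ⟨ε⁻¹, hεi⟩ ^ m from Subtype.ext (by
      show ε ^ (-(m : ℤ)) = ε⁻¹ ^ m
      rw [zpow_neg, zpow_natCast, inv_pow]), map_pow, hεir, one_pow]

/-- A conjugation relation with trivial fixed factor gives the data of `SigmaRel`. -/
theorem SigmaRel.exists_of {Wd : Wild A p} (K : Kum hpM Wd.C) (hA : A.LiesOverPrime p)
    (f₀ : Kum hpM Wd.C₁) (hfb : ∀ s, f₀.fb s = 1) (hv : f₀.v = 0) {κ : QBar} (hκ : κ ≠ 0)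
    {q : FB (p * M)} (hqfix : ∀ τ ∈ Wd.C.H, galF (p * M) τ q = q)
    (hrel : galF (p * M) Wd.σ K.f = algebraMap QBar (FB (p * M)) κ * K.f * f₀.f * q ^ p) :
    ∃ R : SigmaRel Wd K, R.f₀ = f₀.f := by
  classical
  have hp : p.Prime := Fact.out
  have := residueField_isAlgClosed A
  have hq0 : q ≠ 0 := fun h0 => K.f_ne (by
    rw [h0, zero_pow hp.ne_zero, mul_zero] at hrel
    exact (map_eq_zero (galF (p * M) Wd.σ)).mp hrel)
  have hσ := Wd.σ_mem_inertia
  have hσπ0 : Wd.σ Wd.C.π ≠ 0 := (map_ne_zero _).mpr Wd.C.π_ne_zero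
  -- the ratio of the uniformiser to its conjugate
  set ε : QBar := Wd.C.π / Wd.σ Wd.C.π with hεdef
  have hεv : A.valuation ε = 1 := by
    rw [hεdef, map_div₀, valuation_inertia hσ,
      div_self ((Valuation.ne_zero_iff _).mpr Wd.C.π_ne_zero)]
  -- the orders of `q`
  have key : ∀ s, ∃ (n : ℤ) (z : LaurentSeries (Res A)), z ≠ 0 ∧
      RedTo A (algebraMap QBar LSer (Wd.C.π ^ (-n)) * iota2 M p hpM s q) z := fun s => by
    obtain ⟨n, h, hne⟩ := Wd.C.exists_zpow_isGUnit hA hp (iota2_fracS M p hpM s q)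
      ((_root_.map_ne_zero _).mpr hq0) fun τ hτ => fix_iota (hqfix τ hτ) s
    exact ⟨n, _, hne, h, rfl⟩
  choose n z hz hzr using key
  set c : Fin 2 → QBar := fun s => ε ^ K.v s * κ * Wd.C.π ^ ((p : ℤ) * n s) with hc
  have hFne : ∀ s, (K.fb s : LaurentSeries (Res A)) ≠ 0 := fun s h => K.fb_ne s (Subtype.ext h)
  have hf₀ : ∀ s, RedTo A (iota2 M p hpM s f₀.f) 1 := fun s => by
    obtain ⟨h, e⟩ := f₀.spec s
    have e1 : algebraMap QBar LSer (Wd.C₁.π ^ (-f₀.v s)) * iota2 M p hpM s f₀.f =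
        iota2 M p hpM s f₀.f := by
      rw [hv, Pi.zero_apply, neg_zero, zpow_zero, map_one, one_mul]
    refine ⟨e1 ▸ h, ?_⟩
    rw [redL_congr _ h e1.symm, e, hfb]
    rfl
  have hRel : ∀ s, ∃ r : Res A, r ≠ 0 ∧ (∃ h : c s ∈ A, IsLocalRing.residue A ⟨c s, h⟩ = r) ∧
      z s ^ p = algebraMap (Res A) (LaurentSeries (Res A)) r⁻¹ := by
    intro s
    set X := algebraMap QBar LSer (Wd.C.π ^ (-K.v s)) * iota2 M p hpM s K.f
    set Y := algebraMap QBar LSer (Wd.C.π ^ (-n s)) * iota2 M p hpM s q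
    have hL := (K.redTo s).coeffMap hσ
    have hR := ((K.redTo s).mul (hf₀ s)).mul ((hzr s).pow p)
    have e : coeffMap (Wd.σ : QBar →+* QBar) X =
        algebraMap QBar LSer (c s) * (X * iota2 M p hpM s f₀.f * Y ^ p) := by
      simp only [X, Y, hc]
      rw [map_mul (coeffMap (Wd.σ : QBar →+* QBar)), coeffMap_algebraMap, ← iota2_galF, hrel]
      simp only [map_mul, map_pow, AlgHom.commutes, mul_pow, RingHom.coe_coe]
      have e1 : Wd.σ (Wd.C.π ^ (-K.v s)) =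
          ε ^ K.v s * Wd.C.π ^ ((p : ℤ) * n s) * Wd.C.π ^ (-K.v s) * (Wd.C.π ^ (-n s)) ^ p := by
        rw [map_zpow₀, hεdef, ← zpow_natCast (Wd.C.π ^ (-n s)), ← zpow_mul,
          mul_right_comm (_ ^ K.v s), mul_assoc, mul_assoc,
          ← zpow_add₀ Wd.C.π_ne_zero, show (p : ℤ) * n s + -n s * (p : ℤ) = 0 by ring, zpow_zero,
          mul_one, div_zpow, div_eq_mul_inv, mul_right_comm, ← zpow_add₀ Wd.C.π_ne_zero,
          add_neg_cancel, zpow_zero, one_mul, zpow_neg]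
      rw [e1, map_mul, map_mul, map_mul, map_pow]
      ring
    have hg : IsGUnit A (algebraMap QBar LSer (c s) * (X * iota2 M p hpM s f₀.f * Y ^ p)) :=
      e ▸ hL.isGUnit (hFne s)
    have h1 : IsGUnit A (algebraMap QBar LSer 1 * (X * iota2 M p hpM s f₀.f * Y ^ p)) := by
      rw [map_one, one_mul]
      exact hR.isGUnit (mul_ne_zero (mul_ne_zero (hFne s) one_ne_zero) (pow_ne_zero _ (hz s)))
    obtain ⟨hcA, hcr⟩ := residue_unit_ne_zero ((valuation_eq_of_isGUnit hg h1).trans (map_one _))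
    refine ⟨_, hcr, ⟨hcA, rfl⟩, ?_⟩
    have e2 := hL.eq ((RedTo.const hcA).mul hR) e
    rw [map_inv₀, mul_one] at *
    refine eq_inv_of_mul_eq_one_left (mul_left_cancel₀ (hFne s) ?_)
    rw [mul_one]
    conv_rhs => rw [e2]
    ring
  choose r hr0 hrc hzp using hRel
  -- equal orders and equal constants
  have hval : ∀ s, A.valuation (κ * Wd.C.π ^ ((p : ℤ) * n s)) = 1 := fun s => by
    obtain ⟨h, hres⟩ := hrc s
    have h1 : A.valuation (c s) = 1 := valuation_eq_one h fun hnu => hr0 s (by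
      rw [← hres, (residue_eq_zero_iff h).mpr hnu])
    simpa [hc, mul_assoc, hεv] using h1
  have hn : ∀ s, n s = n 0 := fun s => by
    have h := (hval s).trans (hval 0).symm
    rw [map_mul, map_mul] at h
    have h' := mul_left_cancel₀ ((Valuation.ne_zero_iff _).mpr hκ) h
    rw [map_zpow₀, map_zpow₀] at h'
    have h'' := zpow_right_injective₀ (zero_lt_iff.mpr ((Valuation.ne_zero_iff _).mpr Wd.C.π_ne_zero))
      (Wd.C.π_nonunit).ne h'
    exact mul_left_cancel₀ (Int.natCast_ne_zero.mpr hp.ne_zero) h''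
  set a := κ * Wd.C.π ^ ((p : ℤ) * n 0) with ha
  have haA : a ∈ A := (A.valuation_le_one_iff _).mp (hval 0).le
  have hu : ∀ s, r s = IsLocalRing.residue A ⟨a, haA⟩ := fun s => by
    obtain ⟨h, hres⟩ := hrc s
    rw [← hres]
    obtain ⟨hk, hkr⟩ := Wd.exists_residue_ratio_zpow (K.v s)
    rw [show (⟨c s, h⟩ : A) = ⟨ε ^ K.v s, hk⟩ * ⟨a, haA⟩ from Subtype.ext (by
      show c s = _ * a
      simp only [hc, ha, ← hn s]; rw [mul_assoc]), map_mul, hkr, one_mul]
  obtain ⟨ρ, hρ⟩ := IsAlgClosed.exists_pow_nat_eq (r 0)⁻¹ hp.pos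
  have hρ0 : ρ ≠ 0 := fun h => inv_ne_zero (hr0 0) (by rw [← hρ, h, zero_pow hp.ne_zero])
  have hzρ : ∀ s, z s = algebraMap (Res A) (LaurentSeries (Res A)) ρ := fun s => by
    have := charP_laurent A p
    apply frobenius_inj (LaurentSeries (Res A)) p
    rw [frobenius_def, frobenius_def, hzp, ← map_pow, hρ, hu s, hu 0]
  obtain ⟨b, hbA, hbfix, hbr⟩ := exists_inertiaFixed_lift hA hp ρ
  have hb0 : b ≠ 0 := by
    rintro rfl
    exact hρ0 (hbr.symm.trans (map_zero (IsLocalRing.residue A)))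
  set d := Wd.C.π ^ (-n 0) * b⁻¹ with hd
  have hd0 : d ≠ 0 := mul_ne_zero (zpow_ne_zero _ Wd.C.π_ne_zero) (inv_ne_zero hb0)
  set q' := algebraMap QBar (FB (p * M)) d * q with hq'
  have hdfix : ∀ τ ∈ Wd.C.H, τ d = d := fun τ hτ => by
    rw [hd, map_mul, map_inv₀, map_zpow₀, Wd.C.π_fixed τ hτ, hbfix τ (Wd.C.le_inertia hτ)]
  have hq'fix : ∀ τ ∈ Wd.C.H, galF (p * M) τ q' = q' := fun τ hτ => by
    rw [hq', map_mul, hqfix τ hτ, galF_const (hdfix τ hτ)]
  have hbinv : RedTo A (algebraMap QBar LSer b⁻¹) (algebraMap (Res A) _ ρ⁻¹) := by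
    rw [map_inv₀, map_inv₀]
    exact (hbr ▸ RedTo.const hbA).inv ((_root_.map_ne_zero _).mpr hρ0)
  have hq's : ∀ s, RedTo A (iota2 M p hpM s q') 1 := fun s => by
    have h := hbinv.mul (hzr s)
    rw [hzρ, ← map_mul, inv_mul_cancel₀ hρ0, map_one] at h
    convert h using 1
    rw [hq', map_mul, AlgHom.commutes, hd, ← hn s, map_mul]
    ring
  have hy : ∀ s, algebraMap QBar LSer Wd.C.π⁻¹ * (iota2 M p hpM s q' - 1) ∈ locS A := fun s =>
    Wd.C.inv_π_mul_sub_one hA (hq's s) fun τ hτ => fix_iota (hq'fix τ hτ) s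
  refine ⟨{
    f₀ := f₀.f
    f₀_ne := f₀.f_ne
    f₀_dvd := f₀.dvd
    f₀_fix := f₀.fix
    f₀_red := hf₀
    q := q'
    q_fix := hq'fix
    y := fun s => algebraMap QBar LSer Wd.C.π⁻¹ * (iota2 M p hpM s q' - 1)
    y_mem := hy
    q_eq := fun s => by
      rw [← mul_assoc, ← map_mul, mul_inv_cancel₀ Wd.C.π_ne_zero, map_one, one_mul,
        add_sub_cancel]
    κ := κ / d ^ p
    κ_ne := div_ne_zero hκ (pow_ne_zero _ hd0)
    rel := by
      have : algebraMap QBar (FB (p * M)) d ≠ 0 := (_root_.map_ne_zero _).mpr hd0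
      rw [hrel, hq', map_div₀ (algebraMap QBar (FB (p * M))) κ,
        map_pow (algebraMap QBar (FB (p * M))) d p, mul_pow]
      field_simp }, rfl⟩

end Fermat.Agent.RT.MazurP

end
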