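import Fermat.Agent.RT.MazurP.Endgame.Classes

/-!
# Comparing coefficient fields, and the conjugation relation of a moved class
-/

set_option autoImplicit false
set_option synthInstance.maxHeartbeats 400000
set_option maxHeartbeats 1000000
set_option linter.unusedSectionVars false

noncomputable section

namespace Fermat.Agent.RT.MazurP

open ModularCurve AlgebraicCurve Fermat.Agent.Semistable Fermat.Agent.Arith
open Fermat.Agent.RT.Mazur

variable {A : ValuationSubring QBar} {p M : ℕ} [Fact p.Prime] [NeZero M] {hpM : ¬ p ∣ M}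
  [CharP (Res A) p] [FF.IsFunctionField (Res A) (KM A M)]

/-- Divisibility of the orders descends to a field of index prime to `p`. -/
theorem Kum.dvd_of_field {C C' : CoefField A p} (K : Kum hpM C) (K₁ : Kum hpM C')
    (hf : K.f = K₁.f) {k : ℕ} (he : C.e = k * C'.e) (hk : ¬ p ∣ k)
    (hdiv : (∀ P, (p : ℤ) ∣ K.s₀ P ∧ (p : ℤ) ∣ K.t₀ P) ∧ (p : ℤ) ∣ K.δ) :
    (∀ P, (p : ℤ) ∣ K₁.s₀ P ∧ (p : ℤ) ∣ K₁.t₀ P) ∧ (p : ℤ) ∣ K₁.δ := by
  have hval : A.valuation C'.π = A.valuation (C.π ^ k) := by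
    refine (pow_left_inj₀ zero_le zero_le C'.e_pos.ne').mp ?_
    rw [← C'.val_p, C.val_p, map_pow, ← pow_mul, he]
  have hord : ∀ (s : Fin 2) (P : Place (Res A) (KM A M)), P.ord (K.fb s) = P.ord (K₁.fb s) := by
    intro s P
    have h1 : IsRed A (iota2 M p hpM s K.f) (K.fb s : LaurentSeries (Res A)) := K.isRed_fb s
    have h2 : IsRed A (iota2 M p hpM s K₁.f) (K₁.fb s : LaurentSeries (Res A)) := K₁.isRed_fb s
    rw [← hf] at h2
    obtain ⟨u, hu, e⟩ := h2.unique h1
    have e' : K.fb s = algebraMap (Res A) (KM A M) u * K₁.fb s := Subtype.ext (by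
      rw [IntermediateField.coe_mul, e]; rfl)
    rw [e', P.ord_mul ((_root_.map_ne_zero _).mpr hu) (K₁.fb_ne s), FF.ord_algebraMap, zero_add]
  have hv : ∀ s, K.v s = k * K₁.v s := by
    intro s
    rw [← K.gord_iota2 s]
    refine CoefField.gord_eq ?_
    obtain ⟨h, e⟩ := K₁.spec s
    have hg : IsGUnit A (algebraMap QBar LSer (C'.π ^ (-K₁.v s)) * iota2 M p hpM s K₁.f) :=
      ⟨h, by rw [e]; exact fun h0 => K₁.fb_ne s (Subtype.ext h0)⟩
    set w : QBar := C.π ^ (-((k : ℤ) * K₁.v s)) / C'.π ^ (-K₁.v s) with hw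
    have hw1 : A.valuation w = 1 := by
      rw [hw, map_div₀, map_zpow₀, map_zpow₀, hval, map_pow, ← zpow_natCast (A.valuation C.π),
        ← zpow_mul, mul_neg, div_self (zpow_ne_zero _
          ((Valuation.ne_zero_iff _).mpr C.π_ne_zero))]
    obtain ⟨hwA, hwr⟩ := residue_unit_ne_zero hw1
    have := (isGUnit_algebraMap hwA (fun hnu => hwr ((residue_eq_zero_iff hwA).mpr hnu))).mul hg
    rw [← hf, ← mul_assoc, ← map_mul, hw, div_mul_cancel₀ _ (zpow_ne_zero _ C'.π_ne_zero)] at this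
    exact this
  refine ⟨fun P => ?_, ?_⟩
  · simpa only [Kum.s₀, Kum.t₀, hord] using hdiv.1 P
  · have h := hdiv.2
    rw [Kum.δ, hv, hv, ← mul_sub] at h
    exact intDvd_of_mul h fun h' => hk (Int.natCast_dvd_natCast.mp h')

/-- A series with leading coefficient one whose `p`-th power is fixed is fixed. -/
theorem fixed_of_pow_eq (hp : p.Prime) {y : LSer} (hy : y.leadingCoeff = 1) {τ : GQ}
    (h : coeffMap (τ : QBar →+* QBar) y ^ p = y ^ p) : coeffMap (τ : QBar →+* QBar) y = y := by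
  have hy0 : y ≠ 0 := fun h0 => by simp [h0] at hy
  set r := coeffMap (τ : QBar →+* QBar) y / y
  have hr : r ^ p = 1 := by rw [div_pow, h, div_self (pow_ne_zero p hy0)]
  have : NeZero p := ⟨hp.ne_zero⟩
  obtain ⟨ζ, hζ⟩ := HasEnoughRootsOfUnity.exists_primitiveRoot QBar p
  obtain ⟨i, -, hi⟩ :=
    (hζ.map_of_injective (algebraMap QBar LSer).injective).eq_pow_of_pow_eq_one hr
  rw [← map_pow] at hi
  have he : coeffMap (τ : QBar →+* QBar) y = algebraMap QBar LSer (ζ ^ i) * y := by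
    rw [hi, div_mul_cancel₀ _ hy0]
  have h1 := congrArg HahnSeries.leadingCoeff he
  rw [JacTorsion.coeffMap_leadingCoeff (τ : QBar →+* QBar), hy, map_one, HahnSeries.leadingCoeff_mul,
    hy, mul_one, algebraMap_laurentSeries_eq_single, HahnSeries.leadingCoeff_of_single] at h1
  rw [he, ← h1, map_one, one_mul]

/-- If `σ` moves the class of `f` by the class of `f₀`, the functions are related with a fixed
`p`-th root factor. -/
theorem exists_sigma_root {N : ℕ} [NeZero N] {σ : GQ} {H : Subgroup GQ}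
    (hnormal : ∀ τ ∈ H, σ⁻¹ * τ * σ ∈ H) (f f₀ : JacTorsion.divGrp QBar (FB N) p)
    (hlead : (((f : (FB N)ˣ) : FB N) : LSer).leadingCoeff = 1)
    (hlead₀ : (((f₀ : (FB N)ˣ) : FB N) : LSer).leadingCoeff = 1)
    (hf : ∀ τ ∈ H, galF N τ ((f : (FB N)ˣ) : FB N) = ((f : (FB N)ˣ) : FB N))
    (hf₀ : ∀ τ ∈ H, galF N τ ((f₀ : (FB N)ˣ) : FB N) = ((f₀ : (FB N)ˣ) : FB N))
    (hcl : σ • (JacTorsion.toTorsion (Additive.ofMul f) : JZero N) =
      (JacTorsion.toTorsion (Additive.ofMul f) : JZero N) +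
        (JacTorsion.toTorsion (Additive.ofMul f₀) : JZero N)) :
    ∃ g : FB N, g ≠ 0 ∧ (∀ τ ∈ H, galF N τ g = g) ∧
      galF N σ ((f : (FB N)ˣ) : FB N) =
        ((f : (FB N)ˣ) : FB N) * ((f₀ : (FB N)ˣ) : FB N) * g ^ p := by
  have hp : p.Prime := Fact.out
  have : NeZero p := ⟨hp.ne_zero⟩
  set F : FB N := ((f : (FB N)ˣ) : FB N) with hF
  set F₀ : FB N := ((f₀ : (FB N)ˣ) : FB N) with hF₀
  set f' := LowerQ.smulDiv (arithmeticGalois (modularFunctionFieldFull N) σ) f
  have h0 : JacTorsion.toTorsion (Additive.ofMul (f' * (f * f₀)⁻¹)) = 0 := by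
    refine Subtype.ext ?_
    rw [ofMul_mul, ofMul_inv, map_add, map_neg, AddSubgroup.coe_add, AddSubgroup.coe_neg,
      ← LowerQ.galois_smul_toTorsion, hcl, LowerQ.add_toTorsion, add_neg_cancel]
    rfl
  obtain ⟨g, hg0, hg⟩ := LowerQ.exists_eq_pow_of_toTorsion_eq_zero h0
  have hFF : F * F₀ ≠ 0 := mul_ne_zero (Units.ne_zero _) (Units.ne_zero _)
  have hrel : galF N σ F = F * F₀ * g ^ p := by
    rw [← hg]
    push_cast
    rw [LowerQ.coe_smulDiv_galois, ← hF, ← hF₀, mul_comm (galF N σ F), mul_inv_cancel_left₀ hFF]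
  set l : QBar := ((g : LSer)).leadingCoeff with hl
  have hl0 : l ≠ 0 := HahnSeries.leadingCoeff_ne_zero.mpr fun h => hg0 (Subtype.ext h)
  have hlc : ∀ (c : QBar) (y : LSer), (algebraMap QBar LSer c * y).leadingCoeff = c * y.leadingCoeff :=
    fun c y => by
      rw [HahnSeries.leadingCoeff_mul, algebraMap_laurentSeries_eq_single,
        HahnSeries.leadingCoeff_of_single]
  have hlpow : ∀ (y : LSer) (n : ℕ), (y ^ n).leadingCoeff = y.leadingCoeff ^ n := fun y n => by
    induction n with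
    | zero => rw [pow_zero, pow_zero, HahnSeries.leadingCoeff_one]
    | succ n ih => rw [pow_succ, HahnSeries.leadingCoeff_mul, ih, pow_succ]
  have hlp : l ^ p = 1 := by
    have h1 := congrArg (fun y : FB N => (y : LSer).leadingCoeff) hrel
    simp only [IntermediateField.coe_mul, SubmonoidClass.coe_pow, coe_arithmeticRingAut,
      JacTorsion.coeffMap_leadingCoeff, HahnSeries.leadingCoeff_mul, hlpow, hlead, hlead₀,
      map_one, one_mul] at h1
    exact h1.symm
  set g₁ : FB N := algebraMap QBar (FB N) l⁻¹ * g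
  have hg1 : g₁ ^ p = g ^ p := by
    rw [mul_pow, ← map_pow, inv_pow, hlp, inv_one, map_one, one_mul]
  refine ⟨g₁, mul_ne_zero ((_root_.map_ne_zero _).mpr (inv_ne_zero hl0)) hg0, fun τ hτ => ?_,
    by rw [hg1, hrel]⟩
  refine Subtype.ext ((coe_arithmeticRingAut τ g₁).trans (fixed_of_pow_eq hp ?_ ?_))
  · show ((algebraMap QBar LSer l⁻¹) * (g : LSer)).leadingCoeff = 1
    rw [hlc, inv_mul_cancel₀ hl0]
  · have e : galF N τ (g ^ p) = g ^ p := by
      have e1 : galF N τ (galF N σ F) = galF N σ F := by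
        conv_rhs => rw [← hf _ (hnormal τ hτ)]
        refine Subtype.ext ?_
        simp only [coe_arithmeticRingAut, coeffMap_coeffMap]
        congr 1
        ext z
        simp [AlgEquiv.mul_apply, AlgEquiv.aut_inv]
      rw [hrel, map_mul, map_mul, hf τ hτ, hf₀ τ hτ] at e1
      exact mul_left_cancel₀ hFF e1
    rw [← hg1] at e
    have e2 := congrArg (fun y : FB N => (y : LSer)) e
    simp only [coe_arithmeticRingAut, SubmonoidClass.coe_pow, map_pow] at e2
    exact e2

end Fermat.Agent.RT.MazurP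

end
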