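import Fermat.Agent.RT.MazurP.Endgame.Normalise
import Fermat.Agent.RT.MazurP.Endgame.Torsion
import Fermat.Agent.RT.MazurP.HeckeKum
import Fermat.Agent.RT.MazurP.Incl
import Fermat.Agent.RT.MazurP.Trivial.Main
import Fermat.Agent.RT.LowerQ.Classes

/-!
# Kummer data of eigen classes of level `p M₀` at level `4 p M₀`
-/

set_option autoImplicit false
set_option synthInstance.maxHeartbeats 400000
set_option maxHeartbeats 1000000
set_option linter.unusedSectionVars false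

noncomputable section

namespace Fermat.Agent.RT.MazurP

open ModularCurve AlgebraicCurve Fermat.Agent.Semistable Fermat.Agent.Arith
open Fermat.Agent.RT.Mazur

/-- The Hecke relation is insensitive to constants and `p`-th powers. -/
theorem HeckeRel.scale {N p l : ℕ} [NeZero N] [NeZero l] [Fact p.Prime] (hl : l.Prime)
    (hN : ¬ l ∣ N) {f : FB N} {a : ℤ} (hrel : HeckeRel N p l f a) {c : QBar} (hc : c ≠ 0)
    {h : FB N} (hh : h ≠ 0) :
    HeckeRel N p l (algebraMap QBar (FB N) c * f * h ^ p) a := by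
  have hp : p.Prime := Fact.out
  obtain ⟨g, hg, e⟩ := hrel
  obtain ⟨d, hd⟩ := IsAlgClosed.exists_pow_nat_eq (c ^ ((l : ℤ) + 1 - a)) hp.pos
  have hd0 : d ≠ 0 := fun h0 => zpow_ne_zero ((l : ℤ) + 1 - a) hc (by
    rw [← hd, h0, zero_pow hp.ne_zero])
  have hca : algebraMap QBar (FB N) c ≠ 0 := (_root_.map_ne_zero _).mpr hc
  refine ⟨algebraMap QBar (FB N) d * g * heckeNorm N l h * (h ^ a)⁻¹, ?_, ?_⟩
  · exact mul_ne_zero (mul_ne_zero (mul_ne_zero ((_root_.map_ne_zero _).mpr hd0) hg)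
      (heckeNorm_ne_zero hh)) (inv_ne_zero (zpow_ne_zero _ hh))
  rw [map_mul, map_mul, map_pow, heckeNorm_algebraMap hl hN, e]
  simp only [mul_pow, ← map_pow, hd, map_zpow₀, mul_zpow, inv_pow]
  have h1 : (h ^ a) ^ p = (h ^ p) ^ a := by
    rw [← zpow_natCast (h ^ a), ← zpow_natCast h p, ← zpow_mul, ← zpow_mul, mul_comm]
  have h2 : algebraMap QBar (FB N) c ^ (l + 1) =
      algebraMap QBar (FB N) c ^ a * algebraMap QBar (FB N) c ^ ((l : ℤ) + 1 - a) := by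
    rw [← zpow_add₀ hca, add_sub_cancel, ← zpow_natCast]
    norm_cast
  rw [map_pow, h2, h1]
  have : (h ^ p) ^ a ≠ 0 := zpow_ne_zero _ (pow_ne_zero _ hh)
  field_simp

variable {A : ValuationSubring QBar} {p M M₀ : ℕ} [Fact p.Prime] [NeZero M] [NeZero M₀]
  {hpM : ¬ p ∣ M} [CharP (Res A) p] [FF.IsFunctionField (Res A) (KM A M)]

/-- The Kummer data at level `p M` of an eigen class of level `p M₀`. -/
theorem exists_kum_of_eigen (hA : A.LiesOverPrime p) (hM : (M : Res A) ≠ 0) (hd : M₀ ∣ M)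
    (C : CoefField A p) {S : Finset ℕ} {a : ℕ → ℤ} (hS : ∀ l, l.Prime → l ∉ S → ¬ l ∣ p * M)
    {x : JZero (p * M₀)} (hx : x ∈ LowerQ.EigTors (p * M₀) p S fun l => (a l : ZMod p))
    (hfix : ∀ τ ∈ C.H, τ • x = x) :
    ∃ f : JacTorsion.divGrp QBar (FB (p * M₀)) p,
      (JacTorsion.toTorsion (Additive.ofMul f) : JZero (p * M₀)) = x ∧
      (((f : (FB (p * M₀))ˣ) : FB (p * M₀)) : LSer).leadingCoeff = 1 ∧
      (∀ τ ∈ C.H, galF (p * M₀) τ ((f : (FB (p * M₀))ˣ) : FB (p * M₀)) =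
        ((f : (FB (p * M₀))ˣ) : FB (p * M₀))) ∧
      ∃ K : Kum hpM C, K.f = inclF (mul_dvd_mul_left p hd) ((f : (FB (p * M₀))ˣ) : FB (p * M₀)) ∧
        ∀ (l : ℕ) [NeZero l], l.Prime → l ∉ S → HeckeRel (p * M) p l K.f (a l) := by
  obtain ⟨hpx, hT⟩ := LowerQ.mem_eigTors.mp hx
  obtain ⟨f, hf, hlead, hffix⟩ := exists_kummer_fixed (H := C.H)
    ⟨x, Pic0.mem_torsion.mpr (by rw [natCast_zsmul]; exact hpx)⟩ hfix
  have hfx : (JacTorsion.toTorsion (Additive.ofMul f) : JZero (p * M₀)) = x :=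
    congrArg Subtype.val hf
  set F := inclF (mul_dvd_mul_left p hd) ((f : (FB (p * M₀))ˣ) : FB (p * M₀)) with hF
  have hF0 : F ≠ 0 := (_root_.map_ne_zero _).mpr (Units.ne_zero _)
  obtain ⟨K, hK⟩ := Kum.exists_of (hpM := hpM) (C := C) hA hM hF0
    (dvd_ord_inclF (mul_dvd_mul_left p hd) f.2) fun τ hτ => by rw [hF, galF_inclF, hffix τ hτ]
  refine ⟨f, hfx, hlead, hffix, K, hK, fun l _ hl hlS => ?_⟩
  rw [hK]
  refine HeckeRel.inclF _ hl (hS l hl hlS) (heckeRel_of_eigen hl f (a l) ?_)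
  rw [hfx, hT l hl hlS]
  exact val_nsmul_eq hpx rfl

/-- A class with trivially reduced Kummer data over a field of degree `1` or `p` vanishes. -/
theorem eq_zero_of_normalised {C : CoefField A p} (hCe : C.e = 1 ∨ C.e = p) (hp5 : 5 ≤ p)
    (hA : A.LiesOverPrime p) (hM : (M : Res A) ≠ 0) (hM4 : M = 4 * M₀) (V : VUnit A hpM)
    (hV : V.Simple) (f : JacTorsion.divGrp QBar (FB (p * M₀)) p) (K' : Kum hpM C)
    (hfb : ∀ s, K'.fb s = 1) (hv : K'.v = 0) {c : QBar} (hc : c ≠ 0) {h : FB (p * M)} (hh : h ≠ 0)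
    (hd : M₀ ∣ M)
    (he : K'.f = algebraMap QBar (FB (p * M)) c *
      inclF (mul_dvd_mul_left p hd) ((f : (FB (p * M₀))ˣ) : FB (p * M₀)) * h ^ p) :
    (JacTorsion.toTorsion (Additive.ofMul f) : JZero (p * M₀)) = 0 := by
  have hp : p.Prime := Fact.out
  have : NeZero p := ⟨hp.ne_zero⟩
  obtain ⟨g, c', hg⟩ := K'.exists_principal hfb hv hCe hp5 hA hM ⟨M₀, hM4⟩ V hV
  have hca : algebraMap QBar (FB (p * M)) c ≠ 0 := (_root_.map_ne_zero _).mpr hc
  obtain ⟨h₀, c₀, hf⟩ := exists_root_of_inclF hM4 hp5 (Units.ne_zero (f : (FB (p * M₀))ˣ))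
    (h := g / h) (c := c' / c) (by
      rw [hg] at he
      rw [map_div₀, div_pow, div_mul_div_comm, eq_div_iff (mul_ne_zero hca (pow_ne_zero _ hh)),
        he]
      ring)
  obtain ⟨d, hd'⟩ := IsAlgClosed.exists_pow_nat_eq c₀ hp.pos
  exact congrArg Subtype.val (LowerQ.toTorsion_eq_zero_of_eq_pow
    (g := algebraMap QBar (FB (p * M₀)) d * h₀) (by rw [mul_pow, ← map_pow, hd', ← hf]))

end Fermat.Agent.RT.MazurP

end
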