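import Fermat.Agent.RT.MazurP.Endgame.Level
import Fermat.Agent.RT.Assembly.Forms
import Fermat.Agent.RT.Frey.Inputs
import Fermat.Agent.EC.Multiplicative.Frey

/-!
# Level lowering at `p` for the Frey curve
-/

set_option autoImplicit false

noncomputable section

open WeierstrassCurve WeierstrassCurve.Affine WeierstrassCurve.Affine.Point

namespace Fermat.Agent.RT.MazurP

/-- The Frey representation descends from level `N` to a level prime to `p`. -/
theorem frey_lowerAtP : RT.Frey.LowerAtPInput := by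
  classical
  intro P N hcond hpN hirr hmod
  have hfact : Fact P.p.Prime := ⟨P.pp⟩
  have hp5 := P.hp5
  have hp2 : P.p ≠ 2 := by omega
  obtain ⟨M₀, rfl⟩ := hpN
  have hne : P.p * M₀ ≠ 0 := hcond.pos.ne'
  have : NeZero M₀ := ⟨right_ne_zero_of_mul hne⟩
  have : NeZero (P.p * M₀) := ⟨hne⟩
  have hpM₀ : ¬ P.p ∣ M₀ := fun h =>
    hcond.sq_not_dvd P.pp (by rw [pow_two]; exact mul_dvd_mul_left _ h)
  have hdiv : (P.p : ℤ) ∣ P.a * P.b * P.c := hcond.p_dvd_abc (dvd_mul_right _ _)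
  have hΔ0 : P.freyCurveInt.Δ ≠ 0 := EC.Reduction.Frey.Δ_ne_zero P
  have hirr' : P.freyCurveInt.ModRepIsIrreducible P.p := by
    rw [EC.Reduction.Frey.freyCurve_eq_map] at hirr
    exact hirr
  have hv : P.p ∣ padicValInt P.p P.freyCurveInt.Δ := by
    rw [EC.Multiplicative.Frey.padicValInt_Δ_of_odd P P.pp hp2]
    exact ⟨2 * padicValInt P.p (P.a * P.b * P.c), by ring⟩
  have hD := GaloisReps.nonempty_heckeGaloisModel
  set S : Finset ℕ := insert 2 (LowerQ.curveSet P.freyCurveInt P.p (P.p * M₀)) with hS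
  have hcl : IsCongruentLevel S (Assembly.freyAbar P (ZMod P.p)) (P.p * M₀) := by
    refine Assembly.isCongruentLevel_of_modularRepOfLevel hD (fun ℓ hℓ h => ?_) hmod
    rw [hS]
    refine Finset.mem_insert_of_mem ?_
    rcases h with h | h | h
    · rw [h]; exact LowerQ.self_mem_curveSet
    · exact LowerQ.dvd_mem_curveSet hΔ0 hℓ h
    · by_contra hn
      exact LowerQ.isGoodPrimeFor_of_not_mem_curveSet hΔ0 hℓ hn h
  obtain ⟨g, hg⟩ := isCongruentLevel_lowerAtMult hp5 hΔ0
    (EC.Reduction.Frey.dvd_Δ P P.pp hp2 hdiv) (EC.Reduction.Frey.not_dvd_c₄ P P.pp hdiv) hv hirr'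
    hpM₀ (mem_curveSet_two hΔ0) hcl
  exact ⟨M₀, dvd_mul_left _ _, hpM₀, Assembly.modularRepOfLevel_of_congruent hD hg⟩

end Fermat.Agent.RT.MazurP

end
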